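import Fermat.Agent.S41.H45.Root
import Fermat.Agent.S30.H870.Cyclo

/-!
# S41, block NE: the cyclotomic character mod `M` on `G_ℚ` (helper45)

For a primitive `M`-th root of unity `ζ ∈ ℚ̄`, `χ = hζ.autToPow ℚ : G_ℚ →* (ZMod M)ˣ`:
* `chi_eq_of_apply_eq_h45` : `χ` only depends on the value at `ζ`;
* `chi_frob_h45` : `χ τ = ℓ` for a Frobenius element at `ℓ ∤ M`;
* `chi_complexConjugation_h45` : `χ c = -1`.
-/

set_option autoImplicit false

namespace Fermat.Agent.S41.H45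

variable {M : ℕ} [NeZero M] {ζ : AlgebraicClosure ℚ} (hζ : IsPrimitiveRoot ζ M)

/-- If `g ζ = ζ ^ e` then `χ g = e` in `ZMod M`. -/
theorem chi_eq_natCast_h45 (g : AlgebraicClosure ℚ ≃ₐ[ℚ] AlgebraicClosure ℚ) (e : ℕ)
    (h : g ζ = ζ ^ e) : ((hζ.autToPow ℚ g : (ZMod M)ˣ) : ZMod M) = (e : ZMod M) := by
  have h1 := hζ.autToPow_spec ℚ g
  rw [h] at h1
  have h2 : (hζ.autToPow ℚ g : ZMod M).val ≡ e [MOD M] := by
    have hfin : IsOfFinOrder ζ :=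
      isOfFinOrder_iff_pow_eq_one.mpr ⟨M, Nat.pos_of_ne_zero (NeZero.ne M), hζ.pow_eq_one⟩
    have := hfin.pow_eq_pow_iff_modEq.mp h1
    rwa [← hζ.eq_orderOf] at this
  have h3 := (ZMod.natCast_eq_natCast_iff _ _ _).mpr h2
  rwa [ZMod.natCast_zmod_val] at h3

/-- `χ` only depends on the value at `ζ`. -/
theorem chi_eq_of_apply_eq_h45 (g g' : AlgebraicClosure ℚ ≃ₐ[ℚ] AlgebraicClosure ℚ)
    (h : g ζ = g' ζ) : hζ.autToPow ℚ g = hζ.autToPow ℚ g' := by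
  apply Units.ext
  have h1 := hζ.autToPow_spec ℚ g'
  rw [← h] at h1
  rw [chi_eq_natCast_h45 hζ g _ h1.symm, ZMod.natCast_zmod_val]

/-- `χ τ = ℓ` for a Frobenius element at a place over `ℓ ∤ M`. -/
theorem chi_frob_h45 {ℓ : ℕ} (hℓ : ℓ.Prime) (hℓM : ¬ ℓ ∣ M)
    (A : ValuationSubring (AlgebraicClosure ℚ)) (τ : AlgebraicClosure ℚ ≃ₐ[ℚ] AlgebraicClosure ℚ)
    (hA : A.LiesOverPrime ℓ) (hτ : A.IsFrobeniusAt τ ℓ) :
    ((hζ.autToPow ℚ τ : (ZMod M)ˣ) : ZMod M) = (ℓ : ZMod M) :=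
  chi_eq_natCast_h45 hζ τ ℓ
    (frobRoot_h45 M ℓ (Nat.pos_of_ne_zero (NeZero.ne M)) hℓ hℓM A τ hA hτ ζ hζ.pow_eq_one)

/-- `χ c = -1` for the complex conjugation. -/
theorem chi_complexConjugation_h45 : hζ.autToPow ℚ complexConjugation = -1 := by
  apply Units.ext
  have hM : 0 < M := Nat.pos_of_ne_zero (NeZero.ne M)
  have h1 : complexConjugation ζ = ζ ^ (M - 1) := by
    rw [Fermat.Agent.S30.H870.complexConjugation_root (NeZero.ne M) hζ.pow_eq_one]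
    apply inv_eq_of_mul_eq_one_right
    rw [← pow_succ', Nat.sub_add_cancel hM, hζ.pow_eq_one]
  rw [chi_eq_natCast_h45 hζ _ _ h1, Units.val_neg, Units.val_one]
  rw [Nat.cast_sub hM, ZMod.natCast_self, zero_sub, Nat.cast_one]

end Fermat.Agent.S41.H45
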