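import Fermat.Agent.S41.Spec.NE
import Fermat.Agent.S41.H701.FinrankTorsion

/-!
# S41, block NE, leaves FLD and RFLD (helper45)

* `torsionField_h45 : Spec.TorsionFieldStatement` — a finite extension `L ⊆ ℚ̄` such that the action
  of `G_ℚ` on `E[n](ℚ̄)` only depends on the restriction to `L` (adjoin the coordinates);
* `rootField_h45 : Spec.RootFieldStatement` — a finite extension containing the `M`-th roots of
  unity.
-/

set_option autoImplicit false

namespace Fermat.Agent.S41.H45

open WeierstrassCurve WeierstrassCurve.Affine WeierstrassCurve.Affine.Point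

/-- `x`-coordinate of a point (junk value `0` at the origin). -/
noncomputable def xCoord_h45 {F : Type*} [Field F] {W : WeierstrassCurve.Affine F} :
    W.Point → F
  | .zero => 0
  | .some x _ _ => x

/-- `y`-coordinate of a point (junk value `0` at the origin). -/
noncomputable def yCoord_h45 {F : Type*} [Field F] {W : WeierstrassCurve.Affine F} :
    W.Point → F
  | .zero => 0
  | .some _ y _ => y

/-- `ℚ̄/ℚ` is algebraic (for the canonical `ℚ`-algebra structure). -/
theorem isAlgebraic_Qb_h45 : Algebra.IsAlgebraic ℚ (AlgebraicClosure ℚ) :=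
  AlgebraicClosure.isAlgebraic ℚ

/-- Two automorphisms agreeing on the coordinates of `P` act in the same way on `P`. -/
theorem smul_eq_smul_of_coords_h45 (E : WeierstrassCurve ℚ)
    (σ τ : AlgebraicClosure ℚ ≃ₐ[ℚ] AlgebraicClosure ℚ)
    (P : (E⁄(AlgebraicClosure ℚ)).Point)
    (hx : σ (xCoord_h45 P) = τ (xCoord_h45 P)) (hy : σ (yCoord_h45 P) = τ (yCoord_h45 P)) :
    σ • P = τ • P := by
  rcases P with _ | ⟨x, y, h⟩
  · rfl
  · rw [algEquiv_smul_def, algEquiv_smul_def, Point.map_some, Point.map_some]
    simp only [Point.some.injEq]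
    exact ⟨hx, hy⟩

/-- **Leaf FLD.** -/
theorem torsionField_h45 : Spec.TorsionFieldStatement := by
  intro E _ n hn
  classical
  have : (E⁄(AlgebraicClosure ℚ)).IsElliptic :=
    inferInstanceAs (E.map (algebraMap ℚ (AlgebraicClosure ℚ))).IsElliptic
  have hfin : Finite (Submodule.torsionBy ℤ (E⁄(AlgebraicClosure ℚ)).Point n) :=
    Fermat.Agent.S41.H701.finite_torsion_prelude_h701 (K := AlgebraicClosure ℚ) E n hn
  set T : Set (AlgebraicClosure ℚ) :=
    Set.range (fun P : Submodule.torsionBy ℤ (E⁄(AlgebraicClosure ℚ)).Point n =>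
        xCoord_h45 (P : (E⁄(AlgebraicClosure ℚ)).Point)) ∪
      Set.range (fun P : Submodule.torsionBy ℤ (E⁄(AlgebraicClosure ℚ)).Point n =>
        yCoord_h45 (P : (E⁄(AlgebraicClosure ℚ)).Point)) with hT
  have hTfin : T.Finite := (Set.finite_range _).union (Set.finite_range _)
  have : Finite T := hTfin
  refine ⟨IntermediateField.adjoin ℚ T, ?_, ?_⟩
  · exact IntermediateField.finiteDimensional_adjoin
      (fun x _ => (isAlgebraic_Qb_h45.isAlgebraic x).isIntegral)
  · intro σ τ hστ P
    apply Subtype.ext
    show σ • (P : (E⁄(AlgebraicClosure ℚ)).Point) = τ • (P : (E⁄(AlgebraicClosure ℚ)).Point)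
    apply smul_eq_smul_of_coords_h45
    · apply hστ
      apply IntermediateField.subset_adjoin
      exact Or.inl ⟨P, rfl⟩
    · apply hστ
      apply IntermediateField.subset_adjoin
      exact Or.inr ⟨P, rfl⟩

/-- **Leaf RFLD.** -/
theorem rootField_h45 : Spec.RootFieldStatement := by
  intro M hM
  classical
  set T : Set (AlgebraicClosure ℚ) := {t | t ^ M = 1} with hT
  have hTfin : T.Finite := by
    have h : T ⊆ ((Polynomial.nthRoots M (1 : AlgebraicClosure ℚ)).toFinset : Set _) := by
      intro t ht
      rw [Finset.mem_coe, Multiset.mem_toFinset, Polynomial.mem_nthRoots hM]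
      exact ht
    exact (Finset.finite_toSet _).subset h
  have : Finite T := hTfin
  refine ⟨IntermediateField.adjoin ℚ T, ?_, ?_⟩
  · exact IntermediateField.finiteDimensional_adjoin
      (fun x _ => (isAlgebraic_Qb_h45.isAlgebraic x).isIntegral)
  · intro t ht
    exact IntermediateField.subset_adjoin ℚ T ht

end Fermat.Agent.S41.H45
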