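import Fermat.Agent.S41.H45.Root
import Fermat.Agent.S30.H870.Cyclo

/-!
# S41, block NE', steps (K1) and (K2) (helper45)

`p` an odd prime, `q` a prime, `c` the complex conjugation.
* `exists_root_h45` : there is `β ∈ ℚ̄` with `β ^ p = q ^ 2`, `c β = β` and `β ∉ ℚ`;
* (K1) `exists_commutator_moving_h45` : there are such a `β` and `σ ∈ G_ℚ` with
  `(σ c σ⁻¹ c⁻¹) β ≠ β`;
* (K2) `not_modEq_of_frob_h45` : if a Frobenius element `τ` at `ℓ ∤ p q`, `p ∣ ℓ - 1`, moves a `p`-th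
  root `β` of `q ^ 2`, then `q ^ ((ℓ - 1) / p) ≢ 1 mod ℓ`.
-/

set_option autoImplicit false

namespace Fermat.Agent.S41.H45

open Fermat.Agent.S55.Bridge Fermat.Agent.S29.H872

/-- `ℚ̄/ℚ` is Galois. -/
theorem isGalois_Qb_h45 : IsGalois ℚ (AlgebraicClosure ℚ) := by
  have : Algebra.IsAlgebraic ℚ (AlgebraicClosure ℚ) := AlgebraicClosure.isAlgebraic ℚ
  have : IsAlgClosure ℚ (AlgebraicClosure ℚ) := ⟨inferInstance, inferInstance⟩
  have : Normal ℚ (AlgebraicClosure ℚ) := IsAlgClosure.normal ℚ (AlgebraicClosure ℚ)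
  exact isGalois_iff.mpr ⟨inferInstance, inferInstance⟩

/-- An element of `ℚ̄` outside `ℚ` is moved by some automorphism. -/
theorem exists_moving_h45 (x : AlgebraicClosure ℚ)
    (hx : x ∉ Set.range (algebraMap ℚ (AlgebraicClosure ℚ))) :
    ∃ σ : AlgebraicClosure ℚ ≃ₐ[ℚ] AlgebraicClosure ℚ, σ x ≠ x := by
  have := isGalois_Qb_h45
  by_contra h
  push Not at h
  exact hx ((InfiniteGalois.mem_range_algebraMap_iff_fixed (k := ℚ)
    (K := AlgebraicClosure ℚ) x).mpr h)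

/-- `q ^ 2` is not a `p`-th power in `ℚ` (`p` odd prime, `q` prime). -/
theorem not_pow_eq_sq_h45 {p q : ℕ} (hp : p.Prime) (hp2 : p ≠ 2) (hq : q.Prime) (r : ℚ) :
    r ^ p ≠ (q : ℚ) ^ 2 := by
  intro h
  have : Fact q.Prime := ⟨hq⟩
  have hq0 : (q : ℚ) ≠ 0 := by exact_mod_cast hq.ne_zero
  have hr0 : r ≠ 0 := by
    rintro rfl
    rw [zero_pow hp.ne_zero] at h
    exact pow_ne_zero 2 hq0 h.symm
  have h1 := congrArg (padicValRat q) h
  rw [padicValRat.pow r, padicValRat.pow (q : ℚ), padicValRat.self hq.one_lt] at h1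
  have h2 : (p : ℤ) ∣ 2 := ⟨padicValRat q r, by rw [h1]; norm_num⟩
  have h3 : p ∣ 2 := by exact_mod_cast h2
  exact hp2 ((Nat.prime_dvd_prime_iff_eq hp Nat.prime_two).mp h3)

/-- A `p`-th root of `q ^ 2` fixed by the complex conjugation and not in `ℚ`. -/
theorem exists_root_h45 {p q : ℕ} (hp : p.Prime) (hp2 : p ≠ 2) (hq : q.Prime) :
    ∃ β : AlgebraicClosure ℚ, β ^ p = (q : AlgebraicClosure ℚ) ^ 2 ∧ complexConjugation β = β ∧
      β ∉ Set.range (algebraMap ℚ (AlgebraicClosure ℚ)) := by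
  obtain ⟨β₁, hβ₁⟩ := IsAlgClosed.exists_pow_nat_eq (q : AlgebraicClosure ℚ) hp.pos
  have hcc : ∀ x : AlgebraicClosure ℚ, complexConjugation (complexConjugation x) = x := by
    intro x
    have := congrArg (fun f : AlgebraicClosure ℚ ≃ₐ[ℚ] AlgebraicClosure ℚ => f x)
      complexConjugation_mul_self
    simpa using this
  refine ⟨β₁ * complexConjugation β₁, ?_, ?_, ?_⟩
  · rw [mul_pow, ← map_pow, hβ₁, map_natCast, sq]
  · rw [map_mul, hcc, mul_comm]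
  · rintro ⟨r, hr⟩
    apply not_pow_eq_sq_h45 hp hp2 hq r
    apply (algebraMap ℚ (AlgebraicClosure ℚ)).injective
    rw [map_pow, hr, mul_pow, ← map_pow, hβ₁, map_natCast, map_pow, map_natCast, sq]

/-- The commutator `σ c σ⁻¹ c⁻¹` maps a `c`-fixed `p`-th root `β` of `a` to `(σ β)² / β`. -/
theorem commutator_apply_h45 {p : ℕ} (hp : p ≠ 0) (a : ℚ) (β : AlgebraicClosure ℚ)
    (hβ0 : β ≠ 0) (hβ : β ^ p = algebraMap ℚ (AlgebraicClosure ℚ) a)
    (hc : complexConjugation β = β)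
    (σ : AlgebraicClosure ℚ ≃ₐ[ℚ] AlgebraicClosure ℚ) :
    (σ * complexConjugation * σ⁻¹ * complexConjugation⁻¹) β = (σ β) ^ 2 / β := by
  rw [complexConjugation_inv]
  simp only [AlgEquiv.mul_apply, hc]
  set γ := σ⁻¹ β with hγ
  have hσγ : σ γ = β := by
    rw [hγ]
    have : (σ * σ⁻¹) β = β := by rw [mul_inv_cancel]; rfl
    simpa [AlgEquiv.mul_apply] using this
  have hγp : γ ^ p = algebraMap ℚ (AlgebraicClosure ℚ) a := by
    rw [hγ, ← map_pow, hβ, AlgEquiv.commutes]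
  have hω : (γ / β) ^ p = 1 := by
    rw [div_pow, hγp, hβ, div_self]
    rw [← hβ]
    exact pow_ne_zero p hβ0
  have hcω := Fermat.Agent.S30.H870.complexConjugation_root hp hω
  have hγ0 : γ ≠ 0 := by
    intro h0
    rw [h0, map_zero] at hσγ
    exact hβ0 hσγ.symm
  have hcγ : complexConjugation γ = β ^ 2 / γ := by
    have h1 : γ = (γ / β) * β := by field_simp
    have h2 : complexConjugation γ = complexConjugation (γ / β) * complexConjugation β := by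
      rw [← map_mul, ← h1]
    rw [h2, hcω, hc]
    field_simp
  rw [hcγ, map_div₀, map_pow, hσγ]

/-- **(K1)** There are a `p`-th root `β` of `q²` and `σ ∈ G_ℚ` such that the commutator
`σ c σ⁻¹ c⁻¹` moves `β`. -/
theorem exists_commutator_moving_h45 {p q : ℕ} (hp : p.Prime) (hp2 : p ≠ 2) (hq : q.Prime) :
    ∃ (β : AlgebraicClosure ℚ) (σ : AlgebraicClosure ℚ ≃ₐ[ℚ] AlgebraicClosure ℚ),
      β ^ p = (q : AlgebraicClosure ℚ) ^ 2 ∧
      (σ * complexConjugation * σ⁻¹ * complexConjugation⁻¹) β ≠ β := by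
  obtain ⟨β, hβ, hc, hrat⟩ := exists_root_h45 hp hp2 hq
  obtain ⟨σ, hσ⟩ := exists_moving_h45 β hrat
  have hq0 : (q : AlgebraicClosure ℚ) ≠ 0 := by exact_mod_cast hq.ne_zero
  have hβ0 : β ≠ 0 := by
    rintro rfl
    rw [zero_pow hp.ne_zero] at hβ
    exact pow_ne_zero 2 hq0 hβ.symm
  have hβ' : β ^ p = algebraMap ℚ (AlgebraicClosure ℚ) ((q : ℚ) ^ 2) := by
    rw [hβ, map_pow, map_natCast]
  refine ⟨β, σ, hβ, ?_⟩
  rw [commutator_apply_h45 hp.ne_zero _ β hβ0 hβ' hc σ]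
  intro h
  -- `η := σ β / β` satisfies `η ^ p = 1`, `η ^ 2 = 1`, hence `η = 1`
  have hη2 : (σ β / β) ^ 2 = 1 := by
    rw [div_pow]
    field_simp
    rw [div_eq_iff hβ0] at h
    rw [h]; ring
  have hηp : (σ β / β) ^ p = 1 := by
    rw [div_pow, ← map_pow, hβ', AlgEquiv.commutes, div_self]
    rw [← hβ']
    exact pow_ne_zero p hβ0
  obtain ⟨k, hk⟩ := (hp.eq_two_or_odd'.resolve_left hp2)
  have hη : σ β / β = 1 := by
    have : (σ β / β) ^ p = (σ β / β) := by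
      rw [hk, pow_succ, pow_mul, hη2, one_pow, one_mul]
    rw [← this, hηp]
  apply hσ
  rw [div_eq_one_iff_eq hβ0] at hη
  exact hη

/-- **(K2)** If a Frobenius element `τ` at `ℓ ∤ p q` with `p ∣ ℓ - 1` moves a `p`-th root `β` of
`q ^ 2`, then `q ^ ((ℓ - 1) / p) ≢ 1 mod ℓ`. -/
theorem not_modEq_of_frob_h45 {p q ℓ : ℕ} (hp : p.Prime) (hq : q.Prime) (hℓ : ℓ.Prime)
    (hℓp : ℓ ≠ p) (hℓq : ℓ ≠ q) (hpℓ : p ∣ ℓ - 1)
    (A : ValuationSubring (AlgebraicClosure ℚ))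
    (τ : AlgebraicClosure ℚ ≃ₐ[ℚ] AlgebraicClosure ℚ)
    (hA : A.LiesOverPrime ℓ) (hτ : A.IsFrobeniusAt τ ℓ)
    (β : AlgebraicClosure ℚ) (hβ : β ^ p = (q : AlgebraicClosure ℚ) ^ 2) (hτβ : τ β ≠ β) :
    ¬ (q ^ ((ℓ - 1) / p) ≡ 1 [MOD ℓ]) := by
  intro hcong
  have hℓp' : ¬ ℓ ∣ p := fun h => hℓp ((Nat.prime_dvd_prime_iff_eq hℓ hp).mp h)
  have hℓq' : ¬ ℓ ∣ q := fun h => hℓq ((Nat.prime_dvd_prime_iff_eq hℓ hq).mp h)
  have hvp : A.valuation (p : AlgebraicClosure ℚ) = 1 := val_natCast_eq_one_h45 hA hℓ hℓp'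
  have hvq : A.valuation (q : AlgebraicClosure ℚ) = 1 := val_natCast_eq_one_h45 hA hℓ hℓq'
  have hvℓ : A.valuation (ℓ : AlgebraicClosure ℚ) < 1 := (A.mem_nonunits_iff).mp hA
  have hq0 : (q : AlgebraicClosure ℚ) ≠ 0 := by exact_mod_cast hq.ne_zero
  have hβ0 : β ≠ 0 := by
    rintro rfl
    rw [zero_pow hp.ne_zero] at hβ
    exact pow_ne_zero 2 hq0 hβ.symm
  have hvβ : A.valuation β = 1 := by
    have h : (A.valuation β) ^ p = 1 := by rw [← map_pow, hβ, map_pow, hvq, one_pow]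
    exact (pow_eq_one_iff.1 h).resolve_right hp.ne_zero
  -- `η := τ β / β` is a nontrivial `p`-th root of unity
  have hηp : (τ β / β) ^ p = 1 := by
    rw [div_pow, ← map_pow, hβ, map_pow, map_natCast, div_self (pow_ne_zero 2 hq0)]
  have hη1 : τ β / β ≠ 1 := by
    intro h
    exact hτβ ((div_eq_one_iff_eq hβ0).mp h)
  have hvη : A.valuation (τ β / β - 1) = 1 :=
    val_sub_roots_eq_one (A := A) hp.ne_zero hvp hηp (one_pow p) hη1
  have hv1 : A.valuation (τ β - β) = 1 := by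
    have : τ β - β = β * (τ β / β - 1) := by field_simp
    rw [this, map_mul, hvβ, hvη, one_mul]
  -- on the other hand `τ β ≡ β ^ ℓ ≡ β`
  have hfrob : A.valuation (τ β - β ^ ℓ) < 1 := frob_val_sub_lt_one A hτ β hvβ.le
  obtain ⟨k, hk⟩ := hpℓ
  have hkdiv : (ℓ - 1) / p = k := by rw [hk, Nat.mul_div_cancel_left k hp.pos]
  rw [hkdiv] at hcong
  have hdvd : (ℓ : ℤ) ∣ (q : ℤ) ^ k - 1 := by
    have := (Nat.modEq_iff_dvd.mp hcong.symm)
    simpa using this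
  obtain ⟨t, ht⟩ := hdvd
  have hβℓ : β ^ ℓ - β = β * ((ℓ : AlgebraicClosure ℚ) * ((t : AlgebraicClosure ℚ) *
      ((q : AlgebraicClosure ℚ) ^ k + 1))) := by
    have hℓ1 : ℓ = (ℓ - 1) + 1 := (Nat.sub_add_cancel hℓ.one_le).symm
    have h1 : β ^ (ℓ - 1) = ((q : AlgebraicClosure ℚ) ^ k) ^ 2 := by
      rw [hk, pow_mul, hβ, ← pow_mul, ← pow_mul, mul_comm]
    have h2 : (q : AlgebraicClosure ℚ) ^ k - 1 = (ℓ : AlgebraicClosure ℚ) * t := by
      have := congrArg (Int.cast : ℤ → AlgebraicClosure ℚ) ht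
      push_cast at this
      exact this
    have h3 : β ^ ℓ = β * β ^ (ℓ - 1) := by
      conv_lhs => rw [hℓ1, pow_succ']
    rw [h3, h1]
    linear_combination β * ((q : AlgebraicClosure ℚ) ^ k + 1) * h2
  have hvβℓ : A.valuation (β ^ ℓ - β) < 1 := by
    rw [hβℓ, map_mul, hvβ, one_mul, map_mul]
    have h1 : A.valuation ((t : AlgebraicClosure ℚ) * ((q : AlgebraicClosure ℚ) ^ k + 1)) ≤ 1 := by
      have : ((t : AlgebraicClosure ℚ) * ((q : AlgebraicClosure ℚ) ^ k + 1))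
          = ((t * ((q : ℤ) ^ k + 1) : ℤ) : AlgebraicClosure ℚ) := by push_cast; ring
      rw [this]
      exact val_intCast_le_one _
    exact (mul_le_of_le_one_right' h1).trans_lt hvℓ
  have hlt : A.valuation (τ β - β) < 1 := by
    have : τ β - β = (τ β - β ^ ℓ) + (β ^ ℓ - β) := by ring
    rw [this]
    exact (A.valuation.map_add _ _).trans_lt (max_lt hfrob hvβℓ)
  rw [hv1] at hlt
  exact lt_irrefl _ hlt

end Fermat.Agent.S41.H45
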