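import Mathlib

/-!
# S41, block NE', step (K3): the trace trick (helper45)

For endomorphisms `g`, `u` of a plane: if `u`, `g u` and `g u²` are unipotent, then `g` is
unipotent.  (Mathlib only.)
-/

set_option autoImplicit false

open Module

namespace Fermat.Agent.S41.H45

section Mat

variable {k : Type*} [Field k]

/-- Cayley–Hamilton for `2 × 2` matrices. -/
theorem matrix_cayley_two_h45 (A : Matrix (Fin 2) (Fin 2) k) :
    A * A = A.trace • A - A.det • (1 : Matrix (Fin 2) (Fin 2) k) := by
  ext i j
  fin_cases i <;> fin_cases j <;>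
    simp [Matrix.mul_apply, Fin.sum_univ_two, Matrix.trace_fin_two, Matrix.det_fin_two] <;> ring

/-- `det (1 + N) = 1 + tr N + det N` for `2 × 2` matrices. -/
theorem matrix_det_one_add_h45 (N : Matrix (Fin 2) (Fin 2) k) :
    (1 + N).det = 1 + N.trace + N.det := by
  simp [Matrix.det_fin_two, Matrix.trace_fin_two]
  ring

/-- A unipotent `2 × 2` matrix has trace `2` and determinant `1`. -/
theorem matrix_trace_det_of_unipotent_h45 (T : Matrix (Fin 2) (Fin 2) k)
    (hT : (T - 1) * (T - 1) = 0) : T.trace = 2 ∧ T.det = 1 := by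
  set N := T - 1 with hN
  have hdet : N.det = 0 := by
    have h := congrArg Matrix.det hT
    rw [Matrix.det_mul, Matrix.det_zero] at h
    exact mul_self_eq_zero.mp h
  have htr : N.trace = 0 := by
    have h := matrix_cayley_two_h45 N
    rw [hT, hdet, zero_smul, sub_zero] at h
    rcases smul_eq_zero.mp h.symm with h0 | h0
    · exact h0
    · rw [h0, Matrix.trace_zero]
  have hT' : T = 1 + N := by rw [hN]; abel
  constructor
  · rw [hT', Matrix.trace_add, htr, add_zero, Matrix.trace_one, Fintype.card_fin]
    norm_num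
  · rw [hT', matrix_det_one_add_h45, htr, hdet, add_zero, add_zero]

/-- A `2 × 2` matrix with trace `2` and determinant `1` is unipotent. -/
theorem matrix_unipotent_of_trace_det_h45 (T : Matrix (Fin 2) (Fin 2) k)
    (htr : T.trace = 2) (hdet : T.det = 1) : (T - 1) * (T - 1) = 0 := by
  have h := matrix_cayley_two_h45 T
  rw [htr, hdet, one_smul] at h
  have : (T - 1) * (T - 1) = T * T - (2 : k) • T + 1 := by
    rw [two_smul]; noncomm_ring
  rw [this, h]
  abel

/-- **Trace trick**, matrix form. -/
theorem matrix_unipotent_of_three_h45 (G U : Matrix (Fin 2) (Fin 2) k)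
    (hu : (U - 1) * (U - 1) = 0) (h1 : (G * U - 1) * (G * U - 1) = 0)
    (h2 : (G * (U * U) - 1) * (G * (U * U) - 1) = 0) : (G - 1) * (G - 1) = 0 := by
  obtain ⟨-, hdU⟩ := matrix_trace_det_of_unipotent_h45 U hu
  obtain ⟨ht1, hd1⟩ := matrix_trace_det_of_unipotent_h45 (G * U) h1
  obtain ⟨ht2, -⟩ := matrix_trace_det_of_unipotent_h45 (G * (U * U)) h2
  have hUU : U * U = (2 : k) • U - 1 := by
    have : (U - 1) * (U - 1) = U * U - (2 : k) • U + 1 := by
      rw [two_smul]; noncomm_ring
    rw [this] at hu
    have h3 : U * U + 1 - (2 : k) • U = 0 := by rw [← hu]; abel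
    exact eq_sub_of_add_eq (sub_eq_zero.mp h3)
  have hGUU : G * (U * U) = (2 : k) • (G * U) - G := by
    rw [hUU, mul_sub, mul_one, Matrix.mul_smul]
  rw [hGUU, Matrix.trace_sub, Matrix.trace_smul, ht1, smul_eq_mul] at ht2
  have htG : G.trace = 2 := by linear_combination (-1 : k) * ht2
  have hdG : G.det = 1 := by
    rw [Matrix.det_mul, hdU, mul_one] at hd1
    exact hd1
  exact matrix_unipotent_of_trace_det_h45 G htG hdG

end Mat

section End

variable {k V : Type*} [Field k] [AddCommGroup V] [Module k V]

/-- **Trace trick** (K3): if `u`, `g u`, `g u²` are unipotent endomorphisms of a plane, so is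
`g`. -/
theorem unipotent_of_three_h45 (hdim : finrank k V = 2) (g u : End k V)
    (hu : (u - 1) * (u - 1) = 0) (h1 : (g * u - 1) * (g * u - 1) = 0)
    (h2 : (g * (u * u) - 1) * (g * (u * u) - 1) = 0) : (g - 1) * (g - 1) = 0 := by
  have hfd : FiniteDimensional k V := FiniteDimensional.of_finrank_pos (by omega)
  let b : Basis (Fin 2) k V := Module.finBasisOfFinrankEq k V hdim
  let φ := LinearMap.toMatrixAlgEquiv b
  apply φ.injective
  have hu' : (φ u - 1) * (φ u - 1) = 0 := by
    have := congrArg φ hu
    simpa using this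
  have h1' : (φ g * φ u - 1) * (φ g * φ u - 1) = 0 := by
    have := congrArg φ h1
    simpa using this
  have h2' : (φ g * (φ u * φ u) - 1) * (φ g * (φ u * φ u) - 1) = 0 := by
    have := congrArg φ h2
    simpa using this
  have := matrix_unipotent_of_three_h45 (φ g) (φ u) hu' h1' h2'
  simpa using this

end End

end Fermat.Agent.S41.H45
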