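import Fermat.Agent.S41.Spec.NE
import Fermat.Agent.Lib.VC.BaseChange
import Fermat.Agent.Lib.Frob.Glue
import Fermat.Agent.Lib.Frob.A1.Main
import Fermat.Agent.Lib.Frob.A2.Main

/-!
# S41, block NE, leaf REL (helper45)

The Frobenius relation `τ² − a_ℓ(W) τ + ℓ = 0` on `E[p](ℚ̄)` for a curve `E/ℚ` with integral model
`W`:  `frobRelTorsion_h45 : Spec.FrobRelTorsionStatement`.
Transport of `Lib.Frob.FrobRelation` (for the model `W`) along `Lib.VC.vcPointBC`.
-/

set_option autoImplicit false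

namespace Fermat.Agent.S41.H45

open WeierstrassCurve WeierstrassCurve.Affine WeierstrassCurve.Affine.Point
open Fermat.Agent.Lib.VC

/-- The Galois action commutes with the change of variables. -/
theorem smul_vcPointBC_h45 (E : WeierstrassCurve ℚ) (C : VariableChange ℚ)
    (τ : AlgebraicClosure ℚ ≃ₐ[ℚ] AlgebraicClosure ℚ)
    (P : ((C • E)⁄(AlgebraicClosure ℚ)).Point) :
    τ • (vcPointBC E C (AlgebraicClosure ℚ) P) = vcPointBC E C (AlgebraicClosure ℚ) (τ • P) :=
  map_vcPointBC E C τ.toAlgHom P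

/-- Transfer of a quadratic relation on torsion points from `C • E` to `E`. -/
theorem rel_transfer_h45 (E W' : WeierstrassCurve ℚ) (C : VariableChange ℚ) (hC : C • E = W')
    (τ : AlgebraicClosure ℚ ≃ₐ[ℚ] AlgebraicClosure ℚ) (a b : ℤ) (n : ℕ)
    (h : ∀ P : (W'⁄(AlgebraicClosure ℚ)).Point, n • P = 0 →
      τ • τ • P - a • τ • P + b • P = 0)
    (Q : (E⁄(AlgebraicClosure ℚ)).Point) (hQ : n • Q = 0) :
    τ • τ • Q - a • τ • Q + b • Q = 0 := by
  subst hC
  obtain ⟨P, rfl⟩ := (vcPointBC E C (AlgebraicClosure ℚ)).surjective Q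
  have hP : n • P = 0 := by
    apply (vcPointBC E C (AlgebraicClosure ℚ)).injective
    rw [map_nsmul, hQ, _root_.map_zero]
  have := congrArg (vcPointBC E C (AlgebraicClosure ℚ)) (h P hP)
  rw [_root_.map_zero, map_add, map_sub, map_zsmul, map_zsmul, ← smul_vcPointBC_h45,
    ← smul_vcPointBC_h45] at this
  exact this

/-- The Frobenius relation for integral models (on main, S52 row). -/
theorem frobRelation_h45 : Fermat.Agent.Lib.Frob.FrobRelation :=
  Fermat.Agent.Lib.Frob.frobRelation_of_parts Fermat.Agent.Lib.Frob.frobRelationFin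
    Fermat.Agent.Lib.Frob.reductionData

/-- **Leaf REL.** -/
theorem frobRelTorsion_h45 : Spec.FrobRelTorsionStatement := by
  intro E _ W hW p ℓ hp hℓ h5 hℓp hgood A τ hA hτ P
  obtain ⟨C, hC⟩ := hW
  have hp0 : 0 < p := hp.pos
  have hℓp' : ¬ ℓ ∣ p := by
    intro h
    exact hℓp ((Nat.prime_dvd_prime_iff_eq hℓ hp).mp h)
  have hP : p • (P : (E⁄(AlgebraicClosure ℚ)).Point) = 0 := by
    have := P.2
    rw [Submodule.mem_torsionBy_iff] at this
    rw [← this]
    exact (natCast_zsmul _ p).symm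
  have key := rel_transfer_h45 E _ C hC τ (W.apOfModel ℓ) (ℓ : ℤ) p
    (fun P' hP' => frobRelation_h45 W ℓ hℓ h5 hgood A τ hA hτ p hp0 hℓp' P' hP')
    (P : (E⁄(AlgebraicClosure ℚ)).Point) hP
  apply Subtype.ext
  exact key

end Fermat.Agent.S41.H45
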