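import Fermat.Agent.S41.H45.Cyc
import Fermat.Agent.S41.H45.Rel
import Fermat.Agent.S41.H45.Fld
import Fermat.Agent.S41.H701.AbstractNE
import Fermat.Agent.Lib.Cheb.FrobeniusDivision

/-!
# S41, block NE: assembly (helper45)

`ne_h45 : Spec.NEStatement` — if `E[p]` is irreducible (`p` odd), then for every `m ≥ 1` and every
finite set `S` there is a prime `ℓ ∉ S` of good reduction of `W`, `ℓ ≡ 1 mod m`, with
`p ∤ a_ℓ(W) − (ℓ + 1)`.

Inputs: Frobenius division (`Lib.Cheb.frobeniusDivision`), the Frobenius relation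
(`frobRelTorsion_h45`), the cyclotomic character mod `m p` (`Cyc.lean`), the abstract lemma
`H701.exists_stable_line_of_eisenstein_h701` and `dim E[p] = 2` (`H701.finrank_torsion_eq_two_h701`).
-/

set_option autoImplicit false

namespace Fermat.Agent.S41.H45

open WeierstrassCurve WeierstrassCurve.Affine WeierstrassCurve.Affine.Point

/-- The mod `p` representation of `G_ℚ` on `E[p](ℚ̄)`, as a monoid homomorphism to `End`. -/
noncomputable def rho_h45 (E : WeierstrassCurve ℚ) (p : ℕ) :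
    (AlgebraicClosure ℚ ≃ₐ[ℚ] AlgebraicClosure ℚ) →*
      Module.End (ZMod p) (Submodule.torsionBy ℤ (E⁄(AlgebraicClosure ℚ)).Point p) where
  toFun σ := AddMonoidHom.toZModLinearMap p
    (DistribSMul.toAddMonoidHom (Submodule.torsionBy ℤ (E⁄(AlgebraicClosure ℚ)).Point p) σ)
  map_one' := by
    ext x
    simp
  map_mul' σ τ := by
    ext x
    simp [mul_smul]

theorem rho_apply_h45 (E : WeierstrassCurve ℚ) (p : ℕ)
    (σ : AlgebraicClosure ℚ ≃ₐ[ℚ] AlgebraicClosure ℚ)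
    (P : Submodule.torsionBy ℤ (E⁄(AlgebraicClosure ℚ)).Point p) :
    rho_h45 E p σ P = σ • P := rfl

/-- The discriminant of an integral model of an elliptic curve is nonzero. -/
theorem delta_ne_zero_h45 (E : WeierstrassCurve ℚ) [E.IsElliptic] (W : WeierstrassCurve ℤ)
    (hW : W.IsIntegralModelOf E) : W.Δ ≠ 0 := by
  obtain ⟨C, hC⟩ := hW
  intro h0
  have h1 : (W.map (Int.castRingHom ℚ)).Δ = 0 := by
    rw [WeierstrassCurve.map_Δ, h0, _root_.map_zero]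
  rw [← hC] at h1
  exact (C • E).isUnit_Δ.ne_zero h1

/-- **Block NE.** -/
theorem ne_h45 : Spec.NEStatement := by
  intro E _ W hW p hp hp2 hirr m hm S
  by_contra hcon
  push Not at hcon
  classical
  have : Fact p.Prime := ⟨hp⟩
  have hMpos : 0 < m * p := Nat.mul_pos hm hp.pos
  have : NeZero (m * p) := ⟨hMpos.ne'⟩
  obtain ⟨ζ, hζ⟩ := HasEnoughRootsOfUnity.exists_primitiveRoot (AlgebraicClosure ℚ) (m * p)
  obtain ⟨L₁, hL₁fin, hL₁⟩ := torsionField_h45 E p hp.pos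
  obtain ⟨L₂, hL₂fin, hL₂⟩ := rootField_h45 (m * p) hMpos
  have hΔ := delta_ne_zero_h45 E W hW
  have hpM : p ∣ m * p := Dvd.intro_left m rfl
  have hLfin : FiniteDimensional ℚ ↥(L₁ ⊔ L₂) := IntermediateField.finiteDimensional_sup L₁ L₂
  have hζL : ζ ∈ L₁ ⊔ L₂ := (le_sup_right : L₂ ≤ L₁ ⊔ L₂) (hL₂ ζ hζ.pow_eq_one)
  have h2 : (2 : ZMod p) ≠ 0 := by
    intro h
    have h' : ((2 : ℕ) : ZMod p) = 0 := by exact_mod_cast h
    rw [ZMod.natCast_eq_zero_iff] at h'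
    exact hp2 ((Nat.prime_dvd_prime_iff_eq hp Nat.prime_two).mp h')
  have : (E⁄(AlgebraicClosure ℚ)).IsElliptic :=
    inferInstanceAs (E.map (algebraMap ℚ (AlgebraicClosure ℚ))).IsElliptic
  have hdim := Fermat.Agent.S41.H701.finrank_torsion_eq_two_h701 (K := AlgebraicClosure ℚ) E p
  have hεval : ∀ u : (ZMod (m * p))ˣ, ((ZMod.unitsMap hpM u : (ZMod p)ˣ) : ZMod p)
      = ZMod.castHom hpM (ZMod p) (u : ZMod (m * p)) := by
    intro u
    rw [ZMod.unitsMap_def]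
    rfl
  have hF : ∀ σ : AlgebraicClosure ℚ ≃ₐ[ℚ] AlgebraicClosure ℚ,
      ∃ (τ : AlgebraicClosure ℚ ≃ₐ[ℚ] AlgebraicClosure ℚ) (j : ℕ) (a : ZMod p),
        rho_h45 E p σ = rho_h45 E p τ ^ j ∧ hζ.autToPow ℚ σ = hζ.autToPow ℚ τ ^ j ∧
        (hζ.autToPow ℚ σ = 1 → hζ.autToPow ℚ τ = 1) ∧
        rho_h45 E p τ * rho_h45 E p τ - a • rho_h45 E p τ
          + ((ZMod.unitsMap hpM (hζ.autToPow ℚ τ) : (ZMod p)ˣ) : ZMod p) •
            (1 : Module.End (ZMod p) (Submodule.torsionBy ℤ (E⁄(AlgebraicClosure ℚ)).Point p)) = 0 ∧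
        (hζ.autToPow ℚ τ = 1 → a = 2) := by
    intro σ
    obtain ⟨ℓ, A, τ, k, j, hℓ, hℓS, hA, hτ, -, hk, hj⟩ :=
      Fermat.Agent.Lib.Cheb.frobeniusDivision (L₁ ⊔ L₂) hLfin σ
        (S ∪ Finset.range 5 ∪ {p} ∪ W.Δ.natAbs.primeFactors ∪ (m * p).primeFactors)
    simp only [Finset.mem_union, Finset.mem_range, Finset.mem_singleton, not_or] at hℓS
    obtain ⟨⟨⟨⟨hℓS, hℓ5⟩, hℓp⟩, hℓΔ⟩, hℓM⟩ := hℓS
    have h5 : 5 ≤ ℓ := not_lt.mp hℓ5
    have hgood : W.IsGoodPrimeFor ℓ := by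
      intro hdvd
      apply hℓΔ
      rw [Nat.mem_primeFactors]
      exact ⟨hℓ, Int.natCast_dvd.mp hdvd, Int.natAbs_ne_zero.mpr hΔ⟩
    have hℓM' : ¬ ℓ ∣ m * p := by
      intro hdvd
      apply hℓM
      rw [Nat.mem_primeFactors]
      exact ⟨hℓ, hdvd, hMpos.ne'⟩
    have hχτ : ((hζ.autToPow ℚ τ : (ZMod (m * p))ˣ) : ZMod (m * p)) = (ℓ : ZMod (m * p)) :=
      chi_frob_h45 hζ hℓ hℓM' A τ hA hτ
    refine ⟨τ, j, ((W.apOfModel ℓ : ℤ) : ZMod p), ?_, ?_, ?_, ?_, ?_⟩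
    · rw [← map_pow]
      apply LinearMap.ext
      intro P
      rw [rho_apply_h45, rho_apply_h45]
      exact hL₁ σ (τ ^ j) (fun x hx => (hj x ((le_sup_left : L₁ ≤ L₁ ⊔ L₂) hx)).symm) P
    · rw [← map_pow]
      exact chi_eq_of_apply_eq_h45 hζ σ (τ ^ j) (hj ζ hζL).symm
    · intro hσ1
      rw [chi_eq_of_apply_eq_h45 hζ τ (σ ^ k) (hk ζ hζL), map_pow, hσ1, one_pow]
    · apply LinearMap.ext
      intro P
      have hrel := frobRelTorsion_h45 E W hW p ℓ hp hℓ h5 hℓp hgood A τ hA hτ P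
      have hc : ((ZMod.unitsMap hpM (hζ.autToPow ℚ τ) : (ZMod p)ˣ) : ZMod p)
          = (((ℓ : ℤ)) : ZMod p) := by
        rw [hεval, hχτ, map_natCast, Int.cast_natCast]
      rw [hc]
      simp only [LinearMap.add_apply, LinearMap.sub_apply, LinearMap.smul_apply,
        Module.End.mul_apply, Module.End.one_apply, LinearMap.zero_apply, rho_apply_h45]
      rw [Int.cast_smul_eq_zsmul, Int.cast_smul_eq_zsmul]
      exact hrel
    · intro hτ1
      rw [hτ1, Units.val_one] at hχτ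
      have hmod : ℓ ≡ 1 [MOD m * p] := by
        rw [← ZMod.natCast_eq_natCast_iff, ← hχτ, Nat.cast_one]
      have hmodm : ℓ ≡ 1 [MOD m] := Nat.ModEq.of_mul_right p hmod
      have hmodp : ℓ ≡ 1 [MOD p] := Nat.ModEq.of_mul_left m hmod
      have hdvd := hcon ℓ hℓ hℓS hgood hmodm
      have h1 : (((W.apOfModel ℓ - ((ℓ : ℤ) + 1) : ℤ)) : ZMod p) = 0 :=
        (ZMod.intCast_zmod_eq_zero_iff_dvd _ p).mpr hdvd
      have h3 : ((ℓ : ℕ) : ZMod p) = ((1 : ℕ) : ZMod p) :=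
        (ZMod.natCast_eq_natCast_iff _ _ _).mpr hmodp
      push_cast at h1 h3
      rw [h3] at h1
      linear_combination h1
  have hcc : hζ.autToPow ℚ complexConjugation = -1 := chi_complexConjugation_h45 hζ
  have hc2 : hζ.autToPow ℚ complexConjugation * hζ.autToPow ℚ complexConjugation = 1 := by
    rw [hcc]
    simp
  have hcε : ((ZMod.unitsMap hpM (hζ.autToPow ℚ complexConjugation) : (ZMod p)ˣ) : ZMod p)
      = -1 := by
    rw [hεval, hcc, Units.val_neg, Units.val_one, map_neg, map_one]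
  obtain ⟨L, hLbot, hLtop, hLstab⟩ :=
    Fermat.Agent.S41.H701.exists_stable_line_of_eisenstein_h701 h2 hdim (rho_h45 E p)
      (hζ.autToPow ℚ) (ZMod.unitsMap hpM) hF complexConjugation hc2 hcε
  rcases hirr.2 L (fun σ x hx => hLstab σ x hx) with h | h
  · exact hLbot h
  · exact hLtop h

end Fermat.Agent.S41.H45
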