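import Fermat.Agent.S41.Spec.NEKummer
import Fermat.Agent.S41.H45.NE
import Fermat.Agent.S41.H45.Kummer
import Fermat.Agent.S41.H45.Trace

/-!
# S41, block NE': assembly (helper45)

`neKummer_h45 : Spec.NEKummerStatement` — if `E[p]` is irreducible (`p` odd) and `q` is a prime, then
for every `m ≥ 1` and every finite set `S` there is a prime `ℓ ∉ S` of good reduction of `W` with
`ℓ ≡ 1 mod m`, `ℓ ≡ 1 mod p`, `p ∤ a_ℓ(W) − (ℓ + 1)` and `q ^ ((ℓ - 1) / p) ≢ 1 mod ℓ`.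
-/

set_option autoImplicit false

namespace Fermat.Agent.S41.H45

open WeierstrassCurve WeierstrassCurve.Affine WeierstrassCurve.Affine.Point

section Chi

variable {M : ℕ} [NeZero M] {ζ : AlgebraicClosure ℚ} (hζ : IsPrimitiveRoot ζ M)

/-- An element of the kernel of `χ` fixes the `M`-th roots of unity. -/
theorem apply_root_of_chi_eq_one_h45 (s : AlgebraicClosure ℚ ≃ₐ[ℚ] AlgebraicClosure ℚ)
    (hs : hζ.autToPow ℚ s = 1) (t : AlgebraicClosure ℚ) (ht : t ^ M = 1) : s t = t := by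
  have hζs : s ζ = ζ := by
    have h := hζ.autToPow_spec ℚ s
    rw [hs, Units.val_one] at h
    rw [← h]
    rcases Nat.lt_or_ge 1 M with h1 | h1
    · haveI : Fact (1 < M) := ⟨h1⟩
      rw [ZMod.val_one, pow_one]
    · have hM : M = 1 := le_antisymm h1 (Nat.pos_of_ne_zero (NeZero.ne M))
      subst hM
      have := hζ.pow_eq_one
      rw [pow_one] at this
      rw [this, one_pow]
  obtain ⟨i, -, rfl⟩ := hζ.eq_pow_of_pow_eq_one ht
  rw [map_pow, hζs]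

/-- The Kummer character is multiplicative on the kernel of `χ`. -/
theorem kummer_mul_h45 {p : ℕ} (hpM : p ∣ M) (a : ℚ) (β : AlgebraicClosure ℚ) (hβ0 : β ≠ 0)
    (hβ : β ^ p = algebraMap ℚ (AlgebraicClosure ℚ) a)
    (s t : AlgebraicClosure ℚ ≃ₐ[ℚ] AlgebraicClosure ℚ) (hs : hζ.autToPow ℚ s = 1) :
    (s * t) β = (s β / β) * (t β / β) * β := by
  have hκ : (t β / β) ^ M = 1 := by
    obtain ⟨k, rfl⟩ := hpM
    rw [pow_mul, div_pow, ← map_pow, hβ, AlgEquiv.commutes, div_self, one_pow]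
    rw [← hβ]
    exact pow_ne_zero p hβ0
  have h1 := apply_root_of_chi_eq_one_h45 hζ s hs _ hκ
  have h2 : t β = (t β / β) * β := by field_simp
  rw [AlgEquiv.mul_apply, h2, map_mul, h1]
  field_simp

end Chi

/-- The Frobenius relation as an identity in `End (E[p])`. -/
theorem rho_frob_rel_h45 (E : WeierstrassCurve ℚ) [E.IsElliptic] (W : WeierstrassCurve ℤ)
    (hW : W.IsIntegralModelOf E) (p ℓ : ℕ) (hp : p.Prime) (hℓ : ℓ.Prime) (h5 : 5 ≤ ℓ)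
    (hℓp : ℓ ≠ p) (hgood : W.IsGoodPrimeFor ℓ)
    (A : ValuationSubring (AlgebraicClosure ℚ))
    (τ : AlgebraicClosure ℚ ≃ₐ[ℚ] AlgebraicClosure ℚ)
    (hA : A.LiesOverPrime ℓ) (hτ : A.IsFrobeniusAt τ ℓ) :
    rho_h45 E p τ * rho_h45 E p τ - ((W.apOfModel ℓ : ℤ) : ZMod p) • rho_h45 E p τ
      + (((ℓ : ℤ)) : ZMod p) •
        (1 : Module.End (ZMod p) (Submodule.torsionBy ℤ (E⁄(AlgebraicClosure ℚ)).Point p)) = 0 := by
  apply LinearMap.ext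
  intro P
  have hrel := frobRelTorsion_h45 E W hW p ℓ hp hℓ h5 hℓp hgood A τ hA hτ P
  simp only [LinearMap.add_apply, LinearMap.sub_apply, LinearMap.smul_apply,
    Module.End.mul_apply, Module.End.one_apply, LinearMap.zero_apply, rho_apply_h45]
  rw [Int.cast_smul_eq_zsmul, Int.cast_smul_eq_zsmul]
  exact hrel

/-- **Block NE'.** -/
theorem neKummer_h45 : Spec.NEKummerStatement := by
  intro E _ W hW p hp hp2 hirr q hq m hm S
  by_contra hcon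
  push Not at hcon
  classical
  have hcon' : ∀ ℓ : ℕ, ℓ.Prime → ℓ ∉ S → W.IsGoodPrimeFor ℓ → ℓ ≡ 1 [MOD m] → ℓ ≡ 1 [MOD p] →
      ¬ (q ^ ((ℓ - 1) / p) ≡ 1 [MOD ℓ]) → (p : ℤ) ∣ W.apOfModel ℓ - ((ℓ : ℤ) + 1) := by
    intro ℓ h1 h2 h3 h4 h5 h6
    by_contra h7
    exact h6 (hcon ℓ h1 h2 h3 h4 h5 h7)
  have : Fact p.Prime := ⟨hp⟩
  have hMpos : 0 < m * p := Nat.mul_pos hm hp.pos
  have : NeZero (m * p) := ⟨hMpos.ne'⟩
  obtain ⟨ζ, hζ⟩ := HasEnoughRootsOfUnity.exists_primitiveRoot (AlgebraicClosure ℚ) (m * p)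
  obtain ⟨L₁, hL₁fin, hL₁⟩ := torsionField_h45 E p hp.pos
  obtain ⟨L₂, hL₂fin, hL₂⟩ := rootField_h45 (m * p) hMpos
  obtain ⟨β, σ₀, hβ, hs₁β⟩ := exists_commutator_moving_h45 hp hp2 hq
  set s₁ : AlgebraicClosure ℚ ≃ₐ[ℚ] AlgebraicClosure ℚ :=
    σ₀ * complexConjugation * σ₀⁻¹ * complexConjugation⁻¹ with hs₁
  have hq0 : (q : AlgebraicClosure ℚ) ≠ 0 := by exact_mod_cast hq.ne_zero
  have hβ0 : β ≠ 0 := by
    rintro rfl
    rw [zero_pow hp.ne_zero] at hβ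
    exact pow_ne_zero 2 hq0 hβ.symm
  have hβ' : β ^ p = algebraMap ℚ (AlgebraicClosure ℚ) ((q : ℚ) ^ 2) := by
    rw [hβ, map_pow, map_natCast]
  have hL₃fin : FiniteDimensional ℚ ↥(IntermediateField.adjoin ℚ ({β} : Set (AlgebraicClosure ℚ))) :=
    IntermediateField.adjoin.finiteDimensional (isAlgebraic_Qb_h45.isAlgebraic β).isIntegral
  set L₃ := IntermediateField.adjoin ℚ ({β} : Set (AlgebraicClosure ℚ)) with hL₃
  have hβL₃ : β ∈ L₃ := IntermediateField.subset_adjoin ℚ _ (Set.mem_singleton β)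
  have hΔ := delta_ne_zero_h45 E W hW
  have hpM : p ∣ m * p := Dvd.intro_left m rfl
  have hL₁₂fin : FiniteDimensional ℚ ↥(L₁ ⊔ L₂) := IntermediateField.finiteDimensional_sup L₁ L₂
  have hLfin : FiniteDimensional ℚ ↥(L₁ ⊔ L₂ ⊔ L₃) :=
    IntermediateField.finiteDimensional_sup (L₁ ⊔ L₂) L₃
  have hL₁le : L₁ ≤ L₁ ⊔ L₂ ⊔ L₃ := le_sup_left.trans le_sup_left
  have hζL : ζ ∈ L₁ ⊔ L₂ ⊔ L₃ :=
    (le_sup_right.trans le_sup_left : L₂ ≤ L₁ ⊔ L₂ ⊔ L₃) (hL₂ ζ hζ.pow_eq_one)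
  have hβL : β ∈ L₁ ⊔ L₂ ⊔ L₃ := (le_sup_right : L₃ ≤ L₁ ⊔ L₂ ⊔ L₃) hβL₃
  have h2 : (2 : ZMod p) ≠ 0 := by
    intro h
    have h' : ((2 : ℕ) : ZMod p) = 0 := by exact_mod_cast h
    rw [ZMod.natCast_eq_zero_iff] at h'
    exact hp2 ((Nat.prime_dvd_prime_iff_eq hp Nat.prime_two).mp h')
  have : (E⁄(AlgebraicClosure ℚ)).IsElliptic :=
    inferInstanceAs (E.map (algebraMap ℚ (AlgebraicClosure ℚ))).IsElliptic
  have hdim := Fermat.Agent.S41.H701.finrank_torsion_eq_two_h701 (K := AlgebraicClosure ℚ) E p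
  have hεval : ∀ u : (ZMod (m * p))ˣ, ((ZMod.unitsMap hpM u : (ZMod p)ˣ) : ZMod p)
      = ZMod.castHom hpM (ZMod p) (u : ZMod (m * p)) := by
    intro u
    rw [ZMod.unitsMap_def]
    rfl
  -- the data of a Frobenius element attached to `σ`
  have hFrob : ∀ σ : AlgebraicClosure ℚ ≃ₐ[ℚ] AlgebraicClosure ℚ,
      ∃ (ℓ : ℕ) (A : ValuationSubring (AlgebraicClosure ℚ))
        (τ : AlgebraicClosure ℚ ≃ₐ[ℚ] AlgebraicClosure ℚ) (k j : ℕ),
        ℓ.Prime ∧ ℓ ∉ S ∧ 5 ≤ ℓ ∧ ℓ ≠ p ∧ ℓ ≠ q ∧ W.IsGoodPrimeFor ℓ ∧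
        A.LiesOverPrime ℓ ∧ A.IsFrobeniusAt τ ℓ ∧
        ((hζ.autToPow ℚ τ : (ZMod (m * p))ˣ) : ZMod (m * p)) = (ℓ : ZMod (m * p)) ∧
        rho_h45 E p σ = rho_h45 E p τ ^ j ∧ hζ.autToPow ℚ σ = hζ.autToPow ℚ τ ^ j ∧
        hζ.autToPow ℚ τ = hζ.autToPow ℚ σ ^ k ∧ (τ ^ j) β = σ β := by
    intro σ
    obtain ⟨ℓ, A, τ, k, j, hℓ, hℓS, hA, hτ, -, hk, hj⟩ :=
      Fermat.Agent.Lib.Cheb.frobeniusDivision (L₁ ⊔ L₂ ⊔ L₃) hLfin σ
        (S ∪ Finset.range 5 ∪ {p} ∪ {q} ∪ W.Δ.natAbs.primeFactors ∪ (m * p).primeFactors)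
    simp only [Finset.mem_union, Finset.mem_range, Finset.mem_singleton, not_or] at hℓS
    obtain ⟨⟨⟨⟨⟨hℓS, hℓ5⟩, hℓp⟩, hℓq⟩, hℓΔ⟩, hℓM⟩ := hℓS
    have h5 : 5 ≤ ℓ := not_lt.mp hℓ5
    have hgood : W.IsGoodPrimeFor ℓ := by
      intro hdvd
      apply hℓΔ
      rw [Nat.mem_primeFactors]
      exact ⟨hℓ, Int.natCast_dvd.mp hdvd, Int.natAbs_ne_zero.mpr hΔ⟩
    have hℓM' : ¬ ℓ ∣ m * p := by
      intro hdvd
      apply hℓM
      rw [Nat.mem_primeFactors]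
      exact ⟨hℓ, hdvd, hMpos.ne'⟩
    refine ⟨ℓ, A, τ, k, j, hℓ, hℓS, h5, hℓp, hℓq, hgood, hA, hτ,
      chi_frob_h45 hζ hℓ hℓM' A τ hA hτ, ?_, ?_, ?_, hj β hβL⟩
    · rw [← map_pow]
      apply LinearMap.ext
      intro P
      rw [rho_apply_h45, rho_apply_h45]
      exact hL₁ σ (τ ^ j) (fun x hx => (hj x (hL₁le hx)).symm) P
    · rw [← map_pow]
      exact chi_eq_of_apply_eq_h45 hζ σ (τ ^ j) (hj ζ hζL).symm
    · rw [← map_pow]
      exact chi_eq_of_apply_eq_h45 hζ τ (σ ^ k) (hk ζ hζL)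
  -- elements of `ker χ` moving `β` are unipotent
  have hU : ∀ s : AlgebraicClosure ℚ ≃ₐ[ℚ] AlgebraicClosure ℚ, hζ.autToPow ℚ s = 1 → s β ≠ β →
      (rho_h45 E p s - 1) * (rho_h45 E p s - 1) = 0 := by
    intro s hs hsβ
    obtain ⟨ℓ, A, τ, k, j, hℓ, hℓS, h5, hℓp, hℓq, hgood, hA, hτ, hχτ, hρ, -, hχk, hjβ⟩ := hFrob s
    have hτ1 : hζ.autToPow ℚ τ = 1 := by rw [hχk, hs, one_pow]
    rw [hτ1, Units.val_one] at hχτ
    have hmod : ℓ ≡ 1 [MOD m * p] := by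
      rw [← ZMod.natCast_eq_natCast_iff, ← hχτ, Nat.cast_one]
    have hmodm : ℓ ≡ 1 [MOD m] := Nat.ModEq.of_mul_right p hmod
    have hmodp : ℓ ≡ 1 [MOD p] := Nat.ModEq.of_mul_left m hmod
    have hpℓ : p ∣ ℓ - 1 := (Nat.modEq_iff_dvd' hℓ.one_le).mp hmodp.symm
    have hτβ : τ β ≠ β := by
      intro h
      apply hsβ
      rw [← hjβ]
      clear hjβ hρ
      induction j with
      | zero => simp
      | succ n ih => rw [pow_succ, AlgEquiv.mul_apply, h, ih]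
    have hK := not_modEq_of_frob_h45 hp hq hℓ hℓp hℓq hpℓ A τ hA hτ β hβ hτβ
    have hdvd := hcon' ℓ hℓ hℓS hgood hmodm hmodp hK
    have h1 : (((W.apOfModel ℓ - ((ℓ : ℤ) + 1) : ℤ)) : ZMod p) = 0 :=
      (ZMod.intCast_zmod_eq_zero_iff_dvd _ p).mpr hdvd
    have h3 : ((ℓ : ℕ) : ZMod p) = ((1 : ℕ) : ZMod p) :=
      (ZMod.natCast_eq_natCast_iff _ _ _).mpr hmodp
    push_cast at h1 h3
    rw [h3] at h1
    have ha : ((W.apOfModel ℓ : ℤ) : ZMod p) = 2 := by linear_combination h1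
    have hrel := rho_frob_rel_h45 E W hW p ℓ hp hℓ h5 hℓp hgood A τ hA hτ
    rw [ha, Int.cast_natCast, h3, one_smul, two_smul] at hrel
    have hτu : (rho_h45 E p τ - 1) * (rho_h45 E p τ - 1) = 0 := by
      rw [← hrel]; noncomm_ring
    rw [hρ]
    exact Fermat.Agent.S41.H701.sq_zero_pow_sub_one_h701 _ hτu j
  have hcc : hζ.autToPow ℚ complexConjugation = -1 := chi_complexConjugation_h45 hζ
  have hs₁χ : hζ.autToPow ℚ s₁ = 1 := by
    rw [hs₁, map_mul, map_mul, map_mul, map_inv, map_inv, hcc]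
    simp
  -- all elements of `ker χ` are unipotent
  have hUall : ∀ σ : AlgebraicClosure ℚ ≃ₐ[ℚ] AlgebraicClosure ℚ, hζ.autToPow ℚ σ = 1 →
      (rho_h45 E p σ - 1) * (rho_h45 E p σ - 1) = 0 := by
    intro σ hσ
    by_cases hσβ : σ β = β
    · have hκ1 : s₁ β / β ≠ 1 := fun h => hs₁β ((div_eq_one_iff_eq hβ0).mp h)
      have hκp : (s₁ β / β) ^ p = 1 := by
        rw [div_pow, ← map_pow, hβ', AlgEquiv.commutes, div_self]
        rw [← hβ']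
        exact pow_ne_zero p hβ0
      have hκ2 : (s₁ β / β) ^ 2 ≠ 1 := by
        intro h
        obtain ⟨k, hk⟩ := (hp.eq_two_or_odd'.resolve_left hp2)
        apply hκ1
        have : (s₁ β / β) ^ p = (s₁ β / β) := by
          rw [hk, pow_succ, pow_mul, h, one_pow, one_mul]
        rw [← this, hκp]
      have e1 : (σ * s₁) β = (s₁ β / β) * β := by
        rw [kummer_mul_h45 hζ hpM _ β hβ0 hβ' σ s₁ hσ, hσβ, div_self hβ0, one_mul]
      have e2 : (s₁ * s₁) β = (s₁ β / β) ^ 2 * β := by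
        rw [kummer_mul_h45 hζ hpM _ β hβ0 hβ' s₁ s₁ hs₁χ, sq]
      have e3 : (σ * (s₁ * s₁)) β = (s₁ β / β) ^ 2 * β := by
        rw [kummer_mul_h45 hζ hpM _ β hβ0 hβ' σ (s₁ * s₁) hσ, hσβ, div_self hβ0, one_mul, e2]
        field_simp
      have n1 : (σ * s₁) β ≠ β := by
        rw [e1]
        intro h
        apply hκ1
        field_simp at h ⊢
        exact h
      have n3 : (σ * (s₁ * s₁)) β ≠ β := by
        rw [e3]
        intro h
        apply hκ2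
        have h' : ((s₁ β / β) ^ 2 - 1) * β = 0 := by rw [sub_mul, h, one_mul, sub_self]
        rcases mul_eq_zero.mp h' with h'' | h''
        · exact sub_eq_zero.mp h''
        · exact absurd h'' hβ0
      have u1 := hU s₁ hs₁χ hs₁β
      have u2 := hU (σ * s₁) (by rw [map_mul, hσ, hs₁χ, one_mul]) n1
      have u3 := hU (σ * (s₁ * s₁)) (by rw [map_mul, map_mul, hσ, hs₁χ, one_mul, one_mul]) n3
      rw [map_mul] at u2
      rw [map_mul, map_mul] at u3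
      exact unipotent_of_three_h45 hdim (rho_h45 E p σ) (rho_h45 E p s₁) u1 u2 u3
    · exact hU σ hσ hσβ
  have hF : ∀ σ : AlgebraicClosure ℚ ≃ₐ[ℚ] AlgebraicClosure ℚ,
      ∃ (τ : AlgebraicClosure ℚ ≃ₐ[ℚ] AlgebraicClosure ℚ) (j : ℕ) (a : ZMod p),
        rho_h45 E p σ = rho_h45 E p τ ^ j ∧ hζ.autToPow ℚ σ = hζ.autToPow ℚ τ ^ j ∧
        (hζ.autToPow ℚ σ = 1 → hζ.autToPow ℚ τ = 1) ∧
        rho_h45 E p τ * rho_h45 E p τ - a • rho_h45 E p τ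
          + ((ZMod.unitsMap hpM (hζ.autToPow ℚ τ) : (ZMod p)ˣ) : ZMod p) •
            (1 : Module.End (ZMod p) (Submodule.torsionBy ℤ (E⁄(AlgebraicClosure ℚ)).Point p)) = 0 ∧
        (hζ.autToPow ℚ τ = 1 → a = 2) := by
    intro σ
    by_cases hσ : hζ.autToPow ℚ σ = 1
    · refine ⟨σ, 1, 2, (pow_one _).symm, (pow_one _).symm, fun h => h, ?_, fun _ => rfl⟩
      have hu := hUall σ hσ
      rw [hσ, map_one, Units.val_one, one_smul, two_smul, ← hu]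
      noncomm_ring
    · obtain ⟨ℓ, A, τ, k, j, hℓ, hℓS, h5, hℓp, hℓq, hgood, hA, hτ, hχτ, hρ, hχj, -, -⟩ := hFrob σ
      refine ⟨τ, j, ((W.apOfModel ℓ : ℤ) : ZMod p), hρ, hχj, fun h => absurd h hσ, ?_, ?_⟩
      · have hc : ((ZMod.unitsMap hpM (hζ.autToPow ℚ τ) : (ZMod p)ˣ) : ZMod p)
            = (((ℓ : ℤ)) : ZMod p) := by
          rw [hεval, hχτ, map_natCast, Int.cast_natCast]
        rw [hc]
        exact rho_frob_rel_h45 E W hW p ℓ hp hℓ h5 hℓp hgood A τ hA hτ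
      · intro hτ1
        exfalso
        apply hσ
        rw [hχj, hτ1, one_pow]
  have hc2 : hζ.autToPow ℚ complexConjugation * hζ.autToPow ℚ complexConjugation = 1 := by
    rw [hcc]
    simp
  have hcε : ((ZMod.unitsMap hpM (hζ.autToPow ℚ complexConjugation) : (ZMod p)ˣ) : ZMod p)
      = -1 := by
    rw [hεval, hcc, Units.val_neg, Units.val_one, map_neg, map_one]
  obtain ⟨L, hLbot, hLtop, hLstab⟩ :=
    Fermat.Agent.S41.H701.exists_stable_line_of_eisenstein_h701 h2 hdim (rho_h45 E p)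
      (hζ.autToPow ℚ) (ZMod.unitsMap hpM) hF complexConjugation hc2 hcε
  rcases hirr.2 L (fun σ x hx => hLstab σ x hx) with h | h
  · exact hLbot h
  · exact hLtop h

end Fermat.Agent.S41.H45
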