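import Fermat.Agent.S41.Spec.NE
import Fermat.Agent.S29.H872.Cyclo

/-!
# S41, block NE, leaf ROOT (helper45)

A Frobenius element at a place over `ℓ ∤ M` acts on the `M`-th roots of unity of `ℚ̄` by
`t ↦ t ^ ℓ`:  `frobRoot_h45 : Spec.FrobRootStatement`.
-/

set_option autoImplicit false

namespace Fermat.Agent.S41.H45

open Fermat.Agent.S55.Bridge Fermat.Agent.S29.H872

/-- A natural number prime to `ℓ` is a unit at a place over `ℓ`. -/
theorem val_natCast_eq_one_h45 {A : ValuationSubring (AlgebraicClosure ℚ)} {ℓ M : ℕ}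
    (hA : A.LiesOverPrime ℓ) (hℓ : ℓ.Prime) (hM : ¬ ℓ ∣ M) :
    A.valuation (M : AlgebraicClosure ℚ) = 1 := by
  have hq' : A.valuation (ℓ : AlgebraicClosure ℚ) < 1 := (A.mem_nonunits_iff).mp hA
  have hcop : IsCoprime (ℓ : ℤ) (M : ℤ) := by
    rw [Int.isCoprime_iff_gcd_eq_one, Int.gcd_natCast_natCast]
    exact (Nat.Prime.coprime_iff_not_dvd hℓ).2 hM
  obtain ⟨u, w, huw⟩ := hcop
  have h1 : (u : AlgebraicClosure ℚ) * (ℓ : AlgebraicClosure ℚ)
      + (w : AlgebraicClosure ℚ) * (M : AlgebraicClosure ℚ) = 1 := by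
    exact_mod_cast congrArg (Int.cast : ℤ → AlgebraicClosure ℚ) huw
  have hsmall : A.valuation ((u : AlgebraicClosure ℚ) * (ℓ : AlgebraicClosure ℚ)) < 1 := by
    rw [map_mul]
    exact (mul_le_of_le_one_left' (val_intCast_le_one u)).trans_lt hq'
  have hwn : A.valuation ((w : AlgebraicClosure ℚ) * (M : AlgebraicClosure ℚ)) = 1 := by
    have : (w : AlgebraicClosure ℚ) * (M : AlgebraicClosure ℚ)
        = 1 + -((u : AlgebraicClosure ℚ) * (ℓ : AlgebraicClosure ℚ)) := by linear_combination h1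
    rw [this, (A.valuation).map_add_eq_of_lt_left
      (by rw [Valuation.map_neg, map_one]; exact hsmall), map_one]
  rw [map_mul] at hwn
  have hp1 : A.valuation (M : AlgebraicClosure ℚ) ≤ 1 := by
    have := val_intCast_le_one (A := A) (M : ℤ)
    simpa using this
  refine le_antisymm hp1 ?_
  calc (1 : A.ValueGroup)
      = A.valuation (w : AlgebraicClosure ℚ) * A.valuation (M : AlgebraicClosure ℚ) := hwn.symm
    _ ≤ 1 * A.valuation (M : AlgebraicClosure ℚ) := mul_le_mul_left (val_intCast_le_one w) _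
    _ = A.valuation (M : AlgebraicClosure ℚ) := one_mul _

/-- **Leaf ROOT.** -/
theorem frobRoot_h45 : Spec.FrobRootStatement := by
  intro M ℓ hM hℓ hℓM A τ hA hτ t ht
  by_contra hne
  have hpv := val_natCast_eq_one_h45 hA hℓ hℓM
  have hM0 : M ≠ 0 := hM.ne'
  have hσt : (τ t) ^ M = 1 := by rw [← map_pow, ht, map_one]
  have htl : (t ^ ℓ) ^ M = 1 := by rw [← pow_mul, mul_comm, pow_mul, ht, one_pow]
  have h1 := val_sub_roots_eq_one (A := A) hM0 hpv hσt htl hne
  have hvt : A.valuation t ≤ 1 := by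
    have h : (A.valuation t) ^ M = 1 := by rw [← map_pow, ht, map_one]
    exact ((pow_eq_one_iff.1 h).resolve_right hM0).le
  have h2 := frob_val_sub_lt_one A hτ t hvt
  rw [h1] at h2
  exact lt_irrefl _ h2

end Fermat.Agent.S41.H45
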